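import Fermat.Agent.SS.Top35.Push
import Fermat.Agent.RED.S37.Pull
import Fermat.Agent.GAL.HeckeComm

/-!
# RIB / Deg / [FUN] : pull-back and push-forward of divisor classes between modular levels

For EVERY `ℚ̄`-algebra homomorphism `φ : F_M → F_{M'}` of modular function fields:
`jPull φ : J₀(M) → J₀(M')`, `jPush φ : J₀(M') → J₀(M)`, functorial, `jPush φ ∘ jPull φ = deg φ`,
equivariant for semilinear automorphisms intertwined by `φ`.
`T_ℓ = jPush α ∘ jPull β`.
-/

set_option autoImplicit false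
set_option linter.style.haveILetI false
set_option linter.unusedSectionVars false

noncomputable section

open AlgebraicCurve ModularCurve

namespace Fermat.Agent.RIB

open Fermat.Agent.S24 Fermat.Agent.GAL.FFBC Fermat.Agent.GAL.FFExt
  Fermat.Agent.GAL.HeckeInputs Fermat.Agent.GAL.HeckeComm

local notation "GQ" => (AlgebraicClosure ℚ ≃ₐ[ℚ] AlgebraicClosure ℚ)

variable {M M' M'' : ℕ} [NeZero M] [NeZero M'] [NeZero M'']

theorem fundamentalIdentity_any (φ : FN M →ₐ[Kb] FN M') :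
    FundamentalIdentityAlong Kb φ (isIntegral_any φ) :=
  fundamentalIdentityAlong _ _ (finiteAlong_any φ) (isFiniteParam_jF M)

theorem normFormula_any (φ : FN M →ₐ[Kb] FN M') : NormFormulaAlong Kb φ (finiteAlong_any φ) :=
  normFormulaAlong _ _ (isFiniteParam_jF M)

/-- `φ^* : J₀(M) → J₀(M')`. -/
def jPull (φ : FN M →ₐ[Kb] FN M') : JZero M →+ JZero M' :=
  RED.pullPic0 φ (isIntegral_any φ) (fundamentalIdentity_any φ)

/-- `φ_* : J₀(M') → J₀(M)`. -/
def jPush (φ : FN M →ₐ[Kb] FN M') : JZero M' →+ JZero M :=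
  SS.pushPic0 φ (isIntegral_any φ) (finiteAlong_any φ) (normFormula_any φ)

theorem jPull_mk (φ : FN M →ₐ[Kb] FN M') (D : Divisor.degZero (K := Kb) (F := FN M)) :
    jPull φ (Pic0.mk D) = Pic0.mk (RED.pullDegZero φ (isIntegral_any φ)
      (fundamentalIdentity_any φ) D) := rfl

theorem jPush_mk (φ : FN M →ₐ[Kb] FN M') (D : Divisor.degZero (K := Kb) (F := FN M')) :
    jPush φ (Pic0.mk D) = Pic0.mk (SS.pushDegZero φ (isIntegral_any φ) D) := rfl

theorem jPull_comp (φ : FN M →ₐ[Kb] FN M') (ψ : FN M' →ₐ[Kb] FN M'') (x : JZero M) :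
    jPull (ψ.comp φ) x = jPull ψ (jPull φ x) := by
  obtain ⟨D, rfl⟩ := Pic0.mk_surjective x
  rw [jPull_mk, jPull_mk, jPull_mk]
  refine congrArg Pic0.mk (Subtype.ext ?_)
  rw [RED.coe_pullDegZero, RED.coe_pullDegZero, RED.coe_pullDegZero]
  exact (pullbackAlong_comp φ ψ _ _ _ _).symm

theorem jPush_comp (φ : FN M →ₐ[Kb] FN M') (ψ : FN M' →ₐ[Kb] FN M'') (x : JZero M'') :
    jPush (ψ.comp φ) x = jPush φ (jPush ψ x) := by
  obtain ⟨D, rfl⟩ := Pic0.mk_surjective x
  rw [jPush_mk, jPush_mk, jPush_mk]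
  refine congrArg Pic0.mk (Subtype.ext ?_)
  rw [SS.coe_pushDegZero, SS.coe_pushDegZero, SS.coe_pushDegZero]
  exact (pushforwardAlong_comp φ ψ _ _ _ (finiteAlong_any φ) (finiteAlong_any ψ)
    (isFiniteParam_jF M) _).symm

/-- `φ_* φ^* D = deg φ • D` on divisors. -/
theorem pushforwardAlong_pullbackAlong (φ : FN M →ₐ[Kb] FN M') (D : Divisor Kb (FN M)) :
    Divisor.pushforwardAlong φ (isIntegral_any φ) (Divisor.pullbackAlong φ (isIntegral_any φ) D) =
      finrankAlong Kb φ • D := by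
  letI := algebraAlong φ
  haveI := isScalarTower_along φ
  haveI := isIntegral_along φ (isIntegral_any φ)
  haveI : Module.Finite (FN M) (FN M') := finiteAlong_any φ
  show Divisor.pushforward (FN M) (Divisor.pullback (FN M') D) = Module.finrank (FN M) (FN M') • D
  induction D using Finsupp.induction_linear with
  | zero => simp
  | add D E hD hE => rw [map_add, map_add, hD, hE, smul_add]
  | single v n =>
    rw [Divisor.pullback_single, map_sum]
    have h1 : ∀ w ∈ v.fiber (FN M'), Divisor.pushforward (FN M)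
        (Finsupp.single w (n * (w.ramificationIndex (FN M) : ℤ))) =
        Finsupp.single v (n * (w.ramificationIndex (FN M) : ℤ)) := by
      intro w hw
      rw [Divisor.pushforward_single, inertiaDeg_eq_one' (isFiniteParam_jF M) w,
        Place.mem_fiber.1 hw]
      simp
    rw [Finset.sum_congr rfl h1, ← Finsupp.single_finsetSum, ← Finset.mul_sum,
      sum_ramificationIndex (isFiniteParam_jF M) v, Finsupp.smul_single]
    congr 1
    simp [mul_comm]

theorem jPush_jPull (φ : FN M →ₐ[Kb] FN M') (x : JZero M) :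
    jPush φ (jPull φ x) = finrankAlong Kb φ • x := by
  obtain ⟨D, rfl⟩ := Pic0.mk_surjective x
  rw [jPull_mk, jPush_mk, ← RED.TorsES.mk_nsmul']
  refine congrArg Pic0.mk (Subtype.ext ?_)
  rw [SS.coe_pushDegZero, RED.coe_pullDegZero, pushforwardAlong_pullbackAlong]
  rfl

theorem jPull_congr {φ ψ : FN M →ₐ[Kb] FN M'} (h : φ = ψ) : jPull φ = jPull ψ := by rw [h]

theorem jPush_congr {φ ψ : FN M →ₐ[Kb] FN M'} (h : φ = ψ) : jPush φ = jPush ψ := by rw [h]

/-- `φ` commutes with the arithmetic Galois action. -/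
def IsRat (φ : FN M →ₐ[Kb] FN M') : Prop :=
  ∀ σ : GQ, SemilinearAut.IntertwinesAlong φ.toRingHom
    (arithmeticGalois (modularFunctionFieldFull M) σ)
    (arithmeticGalois (modularFunctionFieldFull M') σ)

theorem IsRat.comp {φ : FN M →ₐ[Kb] FN M'} {ψ : FN M' →ₐ[Kb] FN M''} (hφ : IsRat φ)
    (hψ : IsRat ψ) : IsRat (ψ.comp φ) := by
  intro σ x
  exact (hψ σ (φ x)).trans (congrArg ψ (hφ σ x))

theorem isRat_alpha (L l : ℕ) [NeZero L] [NeZero l] : IsRat (heckeAlphaBar Kb L l) :=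
  SS.intertwines_heckeAlphaBar L l

theorem isRat_beta (L l : ℕ) [NeZero L] [NeZero l] : IsRat (heckeBetaBar Kb L l) :=
  RED.intertwines_heckeBetaBar L l

theorem jPull_smul {φ : FN M →ₐ[Kb] FN M'} (hφ : IsRat φ) (σ : GQ) (x : JZero M) :
    jPull φ (σ • x) = σ • jPull φ x := by
  rw [galois_smul_pic0_def, galois_smul_pic0_def]
  exact RED.pullPic0_smul _ _ _ (hφ σ) x

theorem jPush_smul {φ : FN M →ₐ[Kb] FN M'} (hφ : IsRat φ) (σ : GQ) (x : JZero M') :
    jPush φ (σ • x) = σ • jPush φ x := by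
  rw [galois_smul_pic0_def, galois_smul_pic0_def]
  exact SS.pushPic0_smul _ _ _ _ (hφ σ) x

theorem pushA_eq_jPush (L l : ℕ) [NeZero L] [NeZero l] :
    SS.pushA L l = jPush (heckeAlphaBar Kb L l) := rfl

theorem pushB_eq_jPush (L l : ℕ) [NeZero L] [NeZero l] :
    SS.pushB L l = jPush (heckeBetaBar Kb L l) := rfl

theorem jfun_correspondence_eq {K F F' : Type*} [Field K] [Field F] [Field F'] [Algebra K F]
    [Algebra K F'] [HasPrincipalDivisors K F'] (φ ψ : F →ₐ[K] F') (hφ : φ.toRingHom.IsIntegral)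
    (hψ : ψ.toRingHom.IsIntegral) (hFI : FundamentalIdentityAlong K φ hφ)
    (hfin : FiniteAlong K ψ) (hN : NormFormulaAlong K ψ hfin) (x : Pic0 K F) :
    Pic0.correspondence φ ψ hφ hψ hFI hfin hN x =
      SS.pushPic0 ψ hψ hfin hN (RED.pullPic0 φ hφ hFI x) := by
  obtain ⟨D, rfl⟩ := Pic0.mk_surjective x
  rfl

/-- `T_ℓ = α_* β^*`. -/
theorem hecke_eq_jPush_jPull (L l : ℕ) [NeZero L] [NeZero l] (hl : l.Prime) (x : JZero L) :
    heckeOperatorBar L ⟨l, hl⟩ x =
      jPush (heckeAlphaBar Kb L l) (jPull (heckeBetaBar Kb L l) x) := by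
  show heckeOperatorAlong (AlgebraicClosure ℚ) L l x = _
  rw [heckeOperatorAlong_eq' L l, heckePic0Bar]
  exact jfun_correspondence_eq _ _ _ _ _ _ _ x

end Fermat.Agent.RIB
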