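import Fermat.Agent.SS.Top35.Push
import Fermat.Agent.RED.S37.Pull

/-!
# RIB / Deg / Kum : the Kummer calculus for torsion divisor classes

`Kum m x f` : the class `x ∈ Pic⁰` is represented by a divisor `D` (of degree `0`) with `m D = div f`.

* every `x` with `m • x = 0` has such an `f` (`exists_kum`);
* `f` determines `x` (`Kum.eq`, `Div` is torsion free);
* pull-back `↔ φ f`, push-forward `↔ N_φ f`, sums `↔` products.

So every identity between composites of `pullPic0`, `pushPic0`, `n • ·` on `m`-torsion classes follows from the same identity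
for functions (`φ`, resp. `normAlong φ`).
-/

set_option autoImplicit false
set_option linter.style.haveILetI false

noncomputable section

open AlgebraicCurve

namespace Fermat.Agent.RIB

open Fermat.Agent.RED Fermat.Agent.SS

section Norm

variable {K F F' F'' : Type*} [Field K] [Field F] [Field F'] [Field F'']
  [Algebra K F] [Algebra K F'] [Algebra K F'']

theorem normAlong_mul (φ : F →ₐ[K] F') (y z : F') :
    TorsES.normAlong φ (y * z) = TorsES.normAlong φ y * TorsES.normAlong φ z := by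
  letI := algebraAlong φ
  exact map_mul (Algebra.norm F) y z

theorem normAlong_one (φ : F →ₐ[K] F') : TorsES.normAlong φ (1 : F') = 1 := by
  letI := algebraAlong φ
  exact map_one (Algebra.norm F)

theorem normAlong_pow (φ : F →ₐ[K] F') (y : F') (n : ℕ) :
    TorsES.normAlong φ (y ^ n) = TorsES.normAlong φ y ^ n := by
  letI := algebraAlong φ
  exact map_pow (Algebra.norm F) y n

/-- `N_φ (φ f) = f ^ deg φ` -/
theorem normAlong_apply (φ : F →ₐ[K] F') (f : F) :
    TorsES.normAlong φ (φ f) = f ^ finrankAlong K φ := by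
  letI := algebraAlong φ
  exact Algebra.norm_algebraMap (S := F') f

/-- transitivity of the norm -/
theorem normAlong_comp (φ : F →ₐ[K] F') (ψ : F' →ₐ[K] F'') (z : F'') :
    TorsES.normAlong (ψ.comp φ) z = TorsES.normAlong φ (TorsES.normAlong ψ z) := by
  letI i1 := algebraAlong φ
  letI i2 := algebraAlong ψ
  letI i3 := algebraAlong (ψ.comp φ)
  haveI : IsScalarTower F F' F'' := IsScalarTower.of_algebraMap_eq fun _ => rfl
  exact (Algebra.norm_norm (R := F) (S := F') (a := z)).symm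

end Norm

section Kum

variable {K F : Type*} [Field K] [Field F] [Algebra K F]

/-- `x = [D]` with `m D = div f`. -/
def Kum (m : ℕ) (x : Pic0 K F) (f : F) : Prop :=
  ∃ D : Divisor.degZero (K := K) (F := F),
    Pic0.mk D = x ∧ TorsES.IsDiv (m : ℤ) (D : Divisor K F) f

theorem exists_kum {m : ℕ} {x : Pic0 K F} (hx : m • x = 0) : ∃ f : F, Kum m x f := by
  obtain ⟨D, rfl⟩ := Pic0.mk_surjective x
  obtain ⟨f, hf⟩ := TorsES.exists_isDiv_of_nsmul_eq_zero hx
  exact ⟨f, D, rfl, hf⟩

namespace Kum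

variable {m : ℕ} {x y : Pic0 K F} {f g : F}

theorem ne_zero (h : Kum m x f) : f ≠ 0 := by
  obtain ⟨D, -, hD⟩ := h
  exact hD.1

/-- the function determines the class. -/
theorem eq (hm : m ≠ 0) (hx : Kum m x f) (hy : Kum m y f) : x = y := by
  obtain ⟨D, rfl, hD⟩ := hx
  obtain ⟨E, rfl, hE⟩ := hy
  refine congrArg Pic0.mk (Subtype.ext (Finsupp.ext fun P => ?_))
  have h := (hD.2 P).trans (hE.2 P).symm
  exact mul_left_cancel₀ (by exact_mod_cast hm) h

theorem congr (hx : Kum m x f) (h : f = g) : Kum m x g := h ▸ hx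

theorem zero : Kum m (0 : Pic0 K F) (1 : F) :=
  ⟨0, rfl, one_ne_zero, fun P => by simp⟩

theorem add (hx : Kum m x f) (hy : Kum m y g) : Kum m (x + y) (f * g) := by
  obtain ⟨D, rfl, hD⟩ := hx
  obtain ⟨E, rfl, hE⟩ := hy
  exact ⟨D + E, rfl, hD.mul hE⟩

theorem neg (hx : Kum m x f) : Kum m (-x) f⁻¹ := by
  obtain ⟨D, rfl, hD⟩ := hx
  exact ⟨-D, rfl, hD.inv⟩

theorem sub (hx : Kum m x f) (hy : Kum m y g) : Kum m (x - y) (f / g) := by
  rw [sub_eq_add_neg, div_eq_mul_inv]
  exact hx.add hy.neg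

theorem nsmul (hx : Kum m x f) (n : ℕ) : Kum m (n • x) (f ^ n) := by
  obtain ⟨D, rfl, hD⟩ := hx
  exact ⟨n • D, rfl, hD.pow n⟩

theorem nsmul_eq_zero (hx : Kum m x f) : m • x = 0 := by
  obtain ⟨D, rfl, hD⟩ := hx
  rw [← TorsES.mk_nsmul', TorsES.mk_eq_zero_iff]
  refine ⟨f, hD.1, fun P => ?_⟩
  rw [← hD.2 P]
  simp

/-- additive form of the uniqueness: `f * g = h` gives `x + y = z`. -/
theorem add_eq (hm : m ≠ 0) {z : Pic0 K F} {h : F} (hx : Kum m x f) (hy : Kum m y g)
    (hz : Kum m z h) (hfg : f * g = h) : x + y = z :=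
  ((hx.add hy).congr hfg).eq hm hz

end Kum

end Kum

section PullPush

variable {K F F' : Type*} [Field K] [Field F] [Field F'] [Algebra K F] [Algebra K F']

theorem Kum.pull [HasPrincipalDivisors K F'] {m : ℕ} {x : Pic0 K F} {f : F} (hx : Kum m x f)
    (φ : F →ₐ[K] F') (hφ : φ.toRingHom.IsIntegral) (hFI : FundamentalIdentityAlong K φ hφ) :
    Kum m (pullPic0 φ hφ hFI x) (φ f) := by
  obtain ⟨D, rfl, hD⟩ := hx
  exact ⟨pullDegZero φ hφ hFI D, rfl, hD.pullbackAlong φ hφ⟩

theorem Kum.push [HasPrincipalDivisors K F'] {m : ℕ} {x : Pic0 K F'} {z : F'} (hx : Kum m x z)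
    (φ : F →ₐ[K] F') (hφ : φ.toRingHom.IsIntegral) (hfin : FiniteAlong K φ)
    (hN : NormFormulaAlong K φ hfin) :
    Kum m (pushPic0 φ hφ hfin hN x) (TorsES.normAlong φ z) := by
  obtain ⟨D, rfl, hD⟩ := hx
  exact ⟨pushDegZero φ hφ D, rfl, hD.pushforwardAlong φ hφ hfin hN⟩

/-- the Prelude correspondence is `ψ_* ∘ φ^*`. -/
theorem correspondence_eq_push_pull [HasPrincipalDivisors K F'] (φ ψ : F →ₐ[K] F')
    (hφ : φ.toRingHom.IsIntegral) (hψ : ψ.toRingHom.IsIntegral)
    (hFI : FundamentalIdentityAlong K φ hφ) (hfin : FiniteAlong K ψ)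
    (hN : NormFormulaAlong K ψ hfin) (x : Pic0 K F) :
    Pic0.correspondence φ ψ hφ hψ hFI hfin hN x =
      pushPic0 ψ hψ hfin hN (pullPic0 φ hφ hFI x) := by
  obtain ⟨D, rfl⟩ := Pic0.mk_surjective x
  rfl

end PullPush

end Fermat.Agent.RIB
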