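import Mathlib

/-!
# RIB / GROW-A : the abstract relation `[UW-F]`

Fields `F`, `F₁`, `E` with embeddings `α β : F → F₁`, `α' β' : F₁ → E`, `w : F₁ → F₁` such that
`α' β = β' α`, `w α = β`, `[F₁ : α F] = d + 1`, `[E : α' F₁] = d ≠ 1` and `E` is generated by
`α' F₁` and `β' F₁`.  Then, for all `y : F₁`,
`N_{α'} (β' y) * w y = β (N_α y)`.

(Geometrically: `X₀(L l²) ⊔ X₀(L l) = X₀(L l) ×_{X₀(L)} X₀(L l)`.)
-/

set_option autoImplicit false
set_option linter.style.haveILetI false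
set_option linter.unusedSectionVars false

namespace Fermat.Agent.RIB

open Module

/-- the norm along a ring homomorphism -/
noncomputable def nrmAlong {A B : Type*} [CommRing A] [CommRing B] (φ : A →+* B) (y : B) : A :=
  letI := φ.toAlgebra
  Algebra.norm A y

/-- the degree of a ring homomorphism -/
noncomputable def degAlong {A B : Type*} [CommRing A] [CommRing B] (φ : A →+* B) : ℕ :=
  letI := φ.toAlgebra
  finrank A B

section

variable {F F₁ E : Type*} [Field F] [Field F₁] [Field E] [CharZero F]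

theorem norm_uw (α β : F →+* F₁) (α' β' : F₁ →+* E) (w : F₁ →+* F₁)
    (h1 : α'.comp β = β'.comp α) (h2 : w.comp α = β) (d : ℕ) (hd1 : degAlong α = d + 1)
    (hd : degAlong α' = d) (hd0 : d ≠ 0) (hd2 : d ≠ 1)
    (hgen : Subfield.closure (Set.range α' ∪ Set.range β') = ⊤) (y : F₁) :
    nrmAlong α' (β' y) * w y = β (nrmAlong α y) := by
  classical
  haveI : CharZero F₁ := charZero_of_injective_ringHom α.injective
  let Ω := AlgebraicClosure E
  let ι : E →+* Ω := algebraMap E Ω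
  letI a1 : Algebra F F₁ := α.toAlgebra
  letI a2 : Algebra F₁ E := α'.toAlgebra
  letI a3 : Algebra F₁ Ω := (ι.comp α').toAlgebra
  letI a4 : Algebra F Ω := (ι.comp (α'.comp β)).toAlgebra
  haveI f1 : FiniteDimensional F F₁ := FiniteDimensional.of_finrank_pos (by
    have : finrank F F₁ = d + 1 := hd1
    omega)
  haveI f2 : FiniteDimensional F₁ E := FiniteDimensional.of_finrank_pos (by
    have : finrank F₁ E = d := hd
    omega)
  -- the two product formulas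
  have e1 : ι (α' (β (Algebra.norm F y))) = ∏ σ : F₁ →ₐ[F] Ω, σ y :=
    Algebra.norm_eq_prod_embeddings F Ω y
  have e2 : ι (α' (Algebra.norm F₁ (β' y))) = ∏ τ : E →ₐ[F₁] Ω, τ (β' y) :=
    Algebra.norm_eq_prod_embeddings F₁ Ω (β' y)
  -- the map
  let σ₀ : F₁ →ₐ[F] Ω :=
    { (ι.comp (α'.comp w)) with
      commutes' := fun c => by
        show ι (α' (w (α c))) = ι (α' (β c))
        rw [← h2]; rfl }
  let Φ : Option (E →ₐ[F₁] Ω) → (F₁ →ₐ[F] Ω) := fun o =>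
    match o with
    | none => σ₀
    | some τ =>
      { (τ.toRingHom.comp β') with
        commutes' := fun c => by
          show τ (β' (α c)) = ι (α' (β c))
          have : β' (α c) = α' (β c) := (RingHom.congr_fun h1 c).symm
          rw [this]
          exact τ.commutes (β c) }
  have hΦn : ∀ z, Φ none z = ι (α' (w z)) := fun z => rfl
  have hΦs : ∀ τ z, Φ (some τ) z = τ (β' z) := fun τ z => rfl
  -- a hom on `E` is determined by its restrictions
  have hdet : ∀ τ τ' : E →+* Ω, (∀ z, τ (α' z) = τ' (α' z)) → (∀ z, τ (β' z) = τ' (β' z)) →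
      τ = τ' := by
    intro τ τ' ha hb
    have hle : Subfield.closure (Set.range α' ∪ Set.range β') ≤ RingHom.eqLocusField τ τ' := by
      rw [Subfield.closure_le]
      rintro _ (⟨z, rfl⟩ | ⟨z, rfl⟩)
      · exact ha z
      · exact hb z
    rw [hgen] at hle
    exact RingHom.ext fun z => hle (Subfield.mem_top z)
  have hne : ¬ ∀ z, β' z = α' (w z) := by
    intro hall
    apply hd2
    -- then `α'` is surjective
    have hsurj : Function.Surjective α' := by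
      have hle : Subfield.closure (Set.range α' ∪ Set.range β') ≤ α'.fieldRange := by
        rw [Subfield.closure_le]
        rintro _ (⟨z, rfl⟩ | ⟨z, rfl⟩)
        · exact ⟨z, rfl⟩
        · exact ⟨w z, (hall z).symm⟩
      rw [hgen] at hle
      intro z
      exact hle (Subfield.mem_top z)
    have : finrank F₁ E = 1 := by
      apply finrank_eq_one_iff'.2
      refine ⟨1, one_ne_zero, fun z => ?_⟩
      obtain ⟨c, rfl⟩ := hsurj z
      exact ⟨c, by rw [Algebra.smul_def, mul_one]; rfl⟩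
    rw [← hd]
    exact this
  have hinj : Function.Injective Φ := by
    rintro (_ | τ) (_ | τ') h
    · rfl
    · exfalso
      apply hne
      intro z
      have h3 := DFunLike.congr_fun h z
      rw [hΦn, hΦs] at h3
      have h4 : τ' (α' (w z)) = ι (α' (w z)) := τ'.commutes (w z)
      rw [← h4] at h3
      exact (τ'.toRingHom.injective h3).symm
    · exfalso
      apply hne
      intro z
      have h3 := DFunLike.congr_fun h z
      rw [hΦn, hΦs] at h3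
      have h4 : τ (α' (w z)) = ι (α' (w z)) := τ.commutes (w z)
      rw [← h4] at h3
      exact τ.toRingHom.injective h3
    · congr 1
      have := hdet τ.toRingHom τ'.toRingHom
        (fun z => (τ.commutes z).trans (τ'.commutes z).symm)
        (fun z => by
          have h3 := DFunLike.congr_fun h z
          rwa [hΦs, hΦs] at h3)
      exact AlgHom.ext fun z => RingHom.congr_fun this z
  have hcard : Fintype.card (Option (E →ₐ[F₁] Ω)) = Fintype.card (F₁ →ₐ[F] Ω) := by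
    rw [Fintype.card_option, AlgHom.card, AlgHom.card]
    have h3 : finrank F F₁ = d + 1 := hd1
    have h4 : finrank F₁ E = d := hd
    rw [h3, h4]
  have hbij : Function.Bijective Φ := (Fintype.bijective_iff_injective_and_card Φ).2 ⟨hinj, hcard⟩
  have e3 : ∏ σ : F₁ →ₐ[F] Ω, σ y = ι (α' (w y)) * ∏ τ : E →ₐ[F₁] Ω, τ (β' y) := by
    rw [← Fintype.prod_bijective Φ hbij (fun o => Φ o y) (fun σ => σ y) (fun _ => rfl),
      Fintype.prod_option]
    rfl
  have e4 : ι (α' (Algebra.norm F₁ (β' y) * w y)) = ι (α' (β (Algebra.norm F y))) := by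
    rw [e1, e3, ← e2, map_mul, map_mul, mul_comm]
  exact α'.injective (ι.injective e4)

end

section Calculus

variable {A B C : Type*} [Field A] [Field B] [Field C]

theorem nrmAlong_map (φ : A →+* B) (x : A) : nrmAlong φ (φ x) = x ^ degAlong φ := by
  letI := φ.toAlgebra
  exact Algebra.norm_algebraMap (S := B) x

theorem nrmAlong_mul (φ : A →+* B) (x y : B) :
    nrmAlong φ (x * y) = nrmAlong φ x * nrmAlong φ y := by
  letI := φ.toAlgebra
  exact map_mul (Algebra.norm A) x y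

theorem nrmAlong_pow (φ : A →+* B) (x : B) (n : ℕ) : nrmAlong φ (x ^ n) = nrmAlong φ x ^ n := by
  letI := φ.toAlgebra
  exact map_pow (Algebra.norm A) x n

theorem nrmAlong_comp (φ : A →+* B) (ψ : B →+* C) (z : C) :
    nrmAlong (ψ.comp φ) z = nrmAlong φ (nrmAlong ψ z) := by
  letI := φ.toAlgebra
  letI := ψ.toAlgebra
  letI := (ψ.comp φ).toAlgebra
  haveI : IsScalarTower A B C := IsScalarTower.of_algebraMap_eq fun _ => rfl
  exact (Algebra.norm_norm (R := A) (S := B) (a := z)).symm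

/-- transport of the norm along an automorphism of the top field -/
theorem nrmAlong_equiv (φ ψ : A →+* B) (w : B →+* B) (hw : w.comp w = RingHom.id B)
    (h : w.comp φ = ψ) (y : B) : nrmAlong ψ (w y) = nrmAlong φ y := by
  let e : B ≃+* B := RingEquiv.ofRingHom w w hw hw
  letI a1 := φ.toAlgebra
  have h1 := @Algebra.norm_eq_of_equiv_equiv A B A B _ _ _ _ φ.toAlgebra ψ.toAlgebra
    (RingEquiv.refl A) e (by
      ext c
      exact (RingHom.congr_fun h c).symm) y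
  exact h1.symm

theorem degAlong_equiv (φ ψ : A →+* B) (w : B →+* B) (hw : w.comp w = RingHom.id B)
    (h : w.comp φ = ψ) : degAlong ψ = degAlong φ := by
  let e : B ≃+* B := RingEquiv.ofRingHom w w hw hw
  exact (@Algebra.finrank_eq_of_equiv_equiv A B _ _ φ.toAlgebra A B _ _ ψ.toAlgebra
    (RingEquiv.refl A) e (by
      ext c
      exact (RingHom.congr_fun h c).symm)).symm

end Calculus

/-- The field-theoretic data behind the three degeneracy maps `X₀(L l²) → X₀(L)`. -/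
structure DegData (F F₁ E : Type*) [Field F] [Field F₁] [Field E] (l : ℕ) where
  α : F →+* F₁
  β : F →+* F₁
  α' : F₁ →+* E
  β' : F₁ →+* E
  w : F₁ →+* F₁
  comm : α'.comp β = β'.comp α
  ww : w.comp w = RingHom.id F₁
  wα : w.comp α = β
  degα : degAlong α = l + 1
  degα' : degAlong α' = l
  degβ' : degAlong β' = l
  two_le : 2 ≤ l
  gen : Subfield.closure (Set.range α' ∪ Set.range β') = ⊤

namespace DegData

variable {F F₁ E : Type*} [Field F] [Field F₁] [Field E] [CharZero F] {l : ℕ}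
  (𝒟 : DegData F F₁ E l)

theorem wβ : 𝒟.w.comp 𝒟.β = 𝒟.α := by
  rw [← 𝒟.wα, ← RingHom.comp_assoc, 𝒟.ww, RingHom.id_comp]

theorem w_α (x : F) : 𝒟.w (𝒟.α x) = 𝒟.β x := RingHom.congr_fun 𝒟.wα x

theorem w_β (x : F) : 𝒟.w (𝒟.β x) = 𝒟.α x := RingHom.congr_fun 𝒟.wβ x

theorem degβ : degAlong 𝒟.β = l + 1 := by
  rw [degAlong_equiv 𝒟.α 𝒟.β 𝒟.w 𝒟.ww 𝒟.wα, 𝒟.degα]

/-- the Hecke operator on functions -/
noncomputable def T (f : F) : F := nrmAlong 𝒟.β (𝒟.α f)

theorem T_eq (f : F) : 𝒟.T f = nrmAlong 𝒟.α (𝒟.β f) := by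
  rw [T, ← 𝒟.w_β, nrmAlong_equiv 𝒟.α 𝒟.β 𝒟.w 𝒟.ww 𝒟.wα]

theorem uw (y : F₁) : nrmAlong 𝒟.α' (𝒟.β' y) * 𝒟.w y = 𝒟.β (nrmAlong 𝒟.α y) :=
  norm_uw 𝒟.α 𝒟.β 𝒟.α' 𝒟.β' 𝒟.w 𝒟.comm 𝒟.wα l 𝒟.degα 𝒟.degα'
    (by have := 𝒟.two_le; omega) (by have := 𝒟.two_le; omega) 𝒟.gen y

theorem uw' (y : F₁) : nrmAlong 𝒟.β' (𝒟.α' y) * 𝒟.w y = 𝒟.α (nrmAlong 𝒟.β y) :=
  norm_uw 𝒟.β 𝒟.α 𝒟.β' 𝒟.α' 𝒟.w 𝒟.comm.symm 𝒟.wβ l 𝒟.degβ 𝒟.degβ'
    (by have := 𝒟.two_le; omega) (by have := 𝒟.two_le; omega)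
    (by rw [Set.union_comm]; exact 𝒟.gen) y

/-! ### the nine entries, for functions -/

theorem e00 (f : F) : nrmAlong 𝒟.α (nrmAlong 𝒟.α' (𝒟.α' (𝒟.α f))) = f ^ (l * (l + 1)) := by
  rw [nrmAlong_map, nrmAlong_pow, nrmAlong_map, 𝒟.degα, 𝒟.degα', ← pow_mul, mul_comm]

theorem e01 (f : F) : nrmAlong 𝒟.α (nrmAlong 𝒟.α' (𝒟.α' (𝒟.β f))) = 𝒟.T f ^ l := by
  rw [nrmAlong_map, nrmAlong_pow, 𝒟.degα', T_eq]

theorem e02 (f : F) :
    nrmAlong 𝒟.α (nrmAlong 𝒟.α' (𝒟.β' (𝒟.β f))) * f ^ (l + 1) = 𝒟.T (𝒟.T f) := by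
  have h := congrArg (nrmAlong 𝒟.α) (𝒟.uw (𝒟.β f))
  rw [nrmAlong_mul, 𝒟.w_β, nrmAlong_map, 𝒟.degα, ← T_eq, ← T_eq] at h
  exact h

theorem e10 (f : F) : nrmAlong 𝒟.β (nrmAlong 𝒟.α' (𝒟.α' (𝒟.α f))) = 𝒟.T f ^ l := by
  rw [nrmAlong_map, nrmAlong_pow, 𝒟.degα', T]

theorem e11 (f : F) : nrmAlong 𝒟.β (nrmAlong 𝒟.α' (𝒟.α' (𝒟.β f))) = f ^ (l * (l + 1)) := by
  rw [nrmAlong_map, nrmAlong_pow, nrmAlong_map, 𝒟.degβ, 𝒟.degα', ← pow_mul, mul_comm]

theorem e12 (f : F) :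
    nrmAlong 𝒟.β (nrmAlong 𝒟.α' (𝒟.β' (𝒟.β f))) * 𝒟.T f = 𝒟.T f ^ (l + 1) := by
  have h := congrArg (nrmAlong 𝒟.β) (𝒟.uw (𝒟.β f))
  rw [nrmAlong_mul, 𝒟.w_β, nrmAlong_map, 𝒟.degβ, ← T_eq] at h
  exact h

theorem e20 (f : F) :
    nrmAlong 𝒟.β (nrmAlong 𝒟.β' (𝒟.α' (𝒟.α f))) * f ^ (l + 1) = 𝒟.T (𝒟.T f) := by
  have h := congrArg (nrmAlong 𝒟.β) (𝒟.uw' (𝒟.α f))
  rw [nrmAlong_mul, 𝒟.w_α, nrmAlong_map, 𝒟.degβ] at h
  exact h

theorem e21 (f : F) : nrmAlong 𝒟.β (nrmAlong 𝒟.β' (𝒟.α' (𝒟.β f))) = 𝒟.T f ^ l := by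
  have h : 𝒟.α' (𝒟.β f) = 𝒟.β' (𝒟.α f) := RingHom.congr_fun 𝒟.comm f
  rw [h, nrmAlong_map, nrmAlong_pow, 𝒟.degβ', T]

theorem e22 (f : F) : nrmAlong 𝒟.β (nrmAlong 𝒟.β' (𝒟.β' (𝒟.β f))) = f ^ (l * (l + 1)) := by
  rw [nrmAlong_map, nrmAlong_pow, nrmAlong_map, 𝒟.degβ, 𝒟.degβ', ← pow_mul, mul_comm]

/-- the two descriptions of the middle push-forward agree -/
theorem mid (z : E) : nrmAlong 𝒟.β (nrmAlong 𝒟.α' z) = nrmAlong 𝒟.α (nrmAlong 𝒟.β' z) := by
  rw [← nrmAlong_comp, ← nrmAlong_comp, 𝒟.comm]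

end DegData

end Fermat.Agent.RIB
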