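import Fermat.Agent.RIB.Deg.Kum

/-!
# RIB / Deg / Entries : `Π ∘ ι = A` on torsion classes, abstract form  ([A-ENTRIES])

Tower of function fields `F --a,b--> F₁ --a',b'--> E` (`F = F_L`, `F₁ = F_{Lℓ}`, `E = F_{Lℓ²}`; `a, a' = α`-type, `b, b' = β`-type
degeneracy maps), `a' b = b' a`.

    ι₀ = a'^* a^*,   ι₁ = a'^* b^*  (= b'^* a^*),   ι₂ = b'^* b^*,
    Π₀ = a_* a'_*,   Π₁ = b_* a'_*  (= a_* b'_*),   Π₂ = b_* b'_*,        T = a_* b^*.

`Tower ℓ a b a' b' w` collects the identities between FUNCTIONS which are needed (`helper50`'s [UW-F], [SW]); then on `m`-torsion classes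

    Π ι = [[ℓ(ℓ+1), ℓT, T²-(ℓ+1)], [ℓT, ℓ(ℓ+1), ℓT], [T²-(ℓ+1), ℓT, ℓ(ℓ+1)]].
-/

set_option autoImplicit false
set_option linter.style.haveILetI false

noncomputable section

open AlgebraicCurve

namespace Fermat.Agent.RIB

open Fermat.Agent.RED Fermat.Agent.SS

/-- an embedding of function fields with everything which is needed for `φ^*` and `φ_*` on `Pic⁰`. -/
structure Cov (K F F' : Type*) [Field K] [Field F] [Field F'] [Algebra K F] [Algebra K F']
    [HasPrincipalDivisors K F'] where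
  hom : F →ₐ[K] F'
  int : hom.toRingHom.IsIntegral
  FI : FundamentalIdentityAlong K hom int
  fin : FiniteAlong K hom
  NF : NormFormulaAlong K hom fin

namespace Cov

variable {K F F' : Type*} [Field K] [Field F] [Field F'] [Algebra K F] [Algebra K F']
  [HasPrincipalDivisors K F']

/-- `φ^*` -/
def pull (c : Cov K F F') : Pic0 K F →+ Pic0 K F' := pullPic0 c.hom c.int c.FI

/-- `φ_*` -/
def push (c : Cov K F F') : Pic0 K F' →+ Pic0 K F := pushPic0 c.hom c.int c.fin c.NF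

/-- the norm -/
def nm (c : Cov K F F') (z : F') : F := TorsES.normAlong c.hom z

theorem kum_pull (c : Cov K F F') {m : ℕ} {x : Pic0 K F} {f : F} (h : Kum m x f) :
    Kum m (c.pull x) (c.hom f) := h.pull c.hom c.int c.FI

theorem kum_push (c : Cov K F F') {m : ℕ} {x : Pic0 K F'} {z : F'} (h : Kum m x z) :
    Kum m (c.push x) (c.nm z) := h.push c.hom c.int c.fin c.NF

theorem nm_mul (c : Cov K F F') (y z : F') : c.nm (y * z) = c.nm y * c.nm z :=
  normAlong_mul c.hom y z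

theorem nm_pow (c : Cov K F F') (y : F') (n : ℕ) : c.nm (y ^ n) = c.nm y ^ n :=
  normAlong_pow c.hom y n

theorem nm_hom (c : Cov K F F') (f : F) : c.nm (c.hom f) = f ^ finrankAlong K c.hom :=
  normAlong_apply c.hom f

end Cov

variable {K F F₁ E : Type*} [Field K] [Field F] [Field F₁] [Field E]
  [Algebra K F] [Algebra K F₁] [Algebra K E] [HasPrincipalDivisors K F₁] [HasPrincipalDivisors K E]

/-- the identities between functions. -/
structure Tower (ℓ : ℕ) (a b : Cov K F F₁) (a' b' : Cov K F₁ E) (w : F₁ → F₁) : Prop where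
  comm : a'.hom.comp b.hom = b'.hom.comp a.hom
  wa : ∀ f, w (a.hom f) = b.hom f
  wb : ∀ f, w (b.hom f) = a.hom f
  dega : finrankAlong K a.hom = ℓ + 1
  degb : finrankAlong K b.hom = ℓ + 1
  dega' : finrankAlong K a'.hom = ℓ
  degb' : finrankAlong K b'.hom = ℓ
  uw1 : ∀ y, a'.nm (b'.hom y) * w y = b.hom (a.nm y)
  uw2 : ∀ y, b'.nm (a'.hom y) * w y = a.hom (b.nm y)
  sw : ∀ f, b.nm (a.hom f) = a.nm (b.hom f)

namespace Tower

variable {ℓ : ℕ} {a b : Cov K F F₁} {a' b' : Cov K F₁ E} {w : F₁ → F₁}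

theorem comm_apply (h : Tower ℓ a b a' b' w) (f : F) : a'.hom (b.hom f) = b'.hom (a.hom f) :=
  congrArg (fun φ : F →ₐ[K] E => φ f) h.comm

/-- `N_b ∘ N_a' = N_a ∘ N_b'` -/
theorem nm_comm (h : Tower ℓ a b a' b' w) (z : E) : b.nm (a'.nm z) = a.nm (b'.nm z) := by
  have h1 := normAlong_comp b.hom a'.hom z
  have h2 := normAlong_comp a.hom b'.hom z
  rw [h.comm] at h1
  exact h1.symm.trans h2

variable {m : ℕ} (hm : m ≠ 0) {x : Pic0 K F} (hx : m • x = 0)

include hm hx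

/-- the two descriptions of `ι₁` agree on torsion classes. -/
theorem pull_comm (h : Tower ℓ a b a' b' w) : a'.pull (b.pull x) = b'.pull (a.pull x) := by
  obtain ⟨f, hf⟩ := exists_kum hx
  exact ((a'.kum_pull (b.kum_pull hf)).congr (h.comm_apply f)).eq hm (b'.kum_pull (a.kum_pull hf))

theorem e00 (h : Tower ℓ a b a' b' w) :
    a.push (a'.push (a'.pull (a.pull x))) = (ℓ * (ℓ + 1)) • x := by
  obtain ⟨f, hf⟩ := exists_kum hx
  refine ((a.kum_push (a'.kum_push (a'.kum_pull (a.kum_pull hf)))).congr ?_).eq hm (hf.nsmul _)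
  rw [Cov.nm_hom, h.dega', Cov.nm_pow, Cov.nm_hom, h.dega, ← pow_mul, mul_comm]

theorem e01 (h : Tower ℓ a b a' b' w) :
    a.push (a'.push (a'.pull (b.pull x))) = ℓ • a.push (b.pull x) := by
  obtain ⟨f, hf⟩ := exists_kum hx
  refine ((a.kum_push (a'.kum_push (a'.kum_pull (b.kum_pull hf)))).congr ?_).eq hm
    ((a.kum_push (b.kum_pull hf)).nsmul _)
  rw [Cov.nm_hom, h.dega', Cov.nm_pow]

theorem e02 (h : Tower ℓ a b a' b' w) :
    a.push (a'.push (b'.pull (b.pull x))) + (ℓ + 1) • x =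
      a.push (b.pull (a.push (b.pull x))) := by
  obtain ⟨f, hf⟩ := exists_kum hx
  refine Kum.add_eq hm (a.kum_push (a'.kum_push (b'.kum_pull (b.kum_pull hf)))) (hf.nsmul _)
    (a.kum_push (b.kum_pull (a.kum_push (b.kum_pull hf)))) ?_
  rw [← h.uw1 (b.hom f), h.wb, Cov.nm_mul, Cov.nm_hom, h.dega]

theorem e10 (h : Tower ℓ a b a' b' w) :
    b.push (a'.push (a'.pull (a.pull x))) = ℓ • a.push (b.pull x) := by
  obtain ⟨f, hf⟩ := exists_kum hx
  refine ((b.kum_push (a'.kum_push (a'.kum_pull (a.kum_pull hf)))).congr ?_).eq hm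
    ((a.kum_push (b.kum_pull hf)).nsmul _)
  rw [Cov.nm_hom, h.dega', Cov.nm_pow, h.sw]

theorem e11 (h : Tower ℓ a b a' b' w) :
    b.push (a'.push (a'.pull (b.pull x))) = (ℓ * (ℓ + 1)) • x := by
  obtain ⟨f, hf⟩ := exists_kum hx
  refine ((b.kum_push (a'.kum_push (a'.kum_pull (b.kum_pull hf)))).congr ?_).eq hm (hf.nsmul _)
  rw [Cov.nm_hom, h.dega', Cov.nm_pow, Cov.nm_hom, h.degb, ← pow_mul, mul_comm]

theorem e12 (h : Tower ℓ a b a' b' w) :
    b.push (a'.push (b'.pull (b.pull x))) = ℓ • a.push (b.pull x) := by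
  obtain ⟨f, hf⟩ := exists_kum hx
  refine ((b.kum_push (a'.kum_push (b'.kum_pull (b.kum_pull hf)))).congr ?_).eq hm
    ((a.kum_push (b.kum_pull hf)).nsmul _)
  rw [h.nm_comm, Cov.nm_hom, h.degb', Cov.nm_pow]

theorem e20 (h : Tower ℓ a b a' b' w) :
    b.push (b'.push (a'.pull (a.pull x))) + (ℓ + 1) • x =
      a.push (b.pull (a.push (b.pull x))) := by
  obtain ⟨f, hf⟩ := exists_kum hx
  refine Kum.add_eq hm (b.kum_push (b'.kum_push (a'.kum_pull (a.kum_pull hf)))) (hf.nsmul _)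
    (a.kum_push (b.kum_pull (a.kum_push (b.kum_pull hf)))) ?_
  rw [← h.sw, ← h.sw, ← h.uw2 (a.hom f), h.wa, Cov.nm_mul, Cov.nm_hom, h.degb]

theorem e21 (h : Tower ℓ a b a' b' w) :
    b.push (b'.push (a'.pull (b.pull x))) = ℓ • a.push (b.pull x) := by
  obtain ⟨f, hf⟩ := exists_kum hx
  refine ((b.kum_push (b'.kum_push (a'.kum_pull (b.kum_pull hf)))).congr ?_).eq hm
    ((a.kum_push (b.kum_pull hf)).nsmul _)
  rw [h.comm_apply, Cov.nm_hom, h.degb', Cov.nm_pow, h.sw]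

theorem e22 (h : Tower ℓ a b a' b' w) :
    b.push (b'.push (b'.pull (b.pull x))) = (ℓ * (ℓ + 1)) • x := by
  obtain ⟨f, hf⟩ := exists_kum hx
  refine ((b.kum_push (b'.kum_push (b'.kum_pull (b.kum_pull hf)))).congr ?_).eq hm (hf.nsmul _)
  rw [Cov.nm_hom, h.degb', Cov.nm_pow, Cov.nm_hom, h.degb, ← pow_mul, mul_comm]

/-- `b_* a^* = a_* b^*` on torsion classes. -/
theorem push_pull_swap (h : Tower ℓ a b a' b' w) : b.push (a.pull x) = a.push (b.pull x) := by
  obtain ⟨f, hf⟩ := exists_kum hx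
  exact ((b.kum_push (a.kum_pull hf)).congr (h.sw f)).eq hm (a.kum_push (b.kum_pull hf))

omit hx in
/-- the two descriptions of `Π₁` agree on torsion classes. -/
theorem push_comm (h : Tower ℓ a b a' b' w) {z : Pic0 K E} (hz : m • z = 0) :
    b.push (a'.push z) = a.push (b'.push z) := by
  obtain ⟨f, hf⟩ := exists_kum hz
  exact ((b.kum_push (a'.kum_push hf)).congr (h.nm_comm f)).eq hm (a.kum_push (b'.kum_push hf))

end Tower

end Fermat.Agent.RIB
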